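import Fermat.Agent.S17.H.X2.Defs
import Fermat.Agent.S17.H.FinAlg
import Fermat.Agent.S17.H.Weight
import Fermat.Agent.S17.H.Semigroup
import Fermat.Agent.S17.H.AbsBasic
import Fermat.Agent.S17.H.NullHom

/-! # S17/H blueprint, block X2 (same fibre)
Statements only (never import this file from a proof file).  Architect: helper142.
Definitions (`co`, `mm`, `Tr`, `Disc`, `pen`, `Jmat`, `Jdet`) and the basic API of `co`:
`Fermat/Agent/S17/H/X2/Defs.lean` (final file). -/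

set_option autoImplicit false

noncomputable section

open scoped Classical

namespace Fermat.Agent.S17.H.WIP.X2

open Fermat.Agent.S17.H Fermat.Agent.S17.H.X2 Polynomial

/-! ## Part A: abstract algebras free over `K[t]` (Mathlib + `H/FinAlg.lean` only) -/

section Abstract

variable {K : Type} [Field K] {A : Type} [CommRing A] [Algebra K A] {t : A} {d : ℕ}
  {y : Fin d → A} (hy : ∀ f : A, ∃! p : Fin d → K[X], f = ∑ j, aeval t (p j) * y j)

/-- A1: the discriminant is not zero. -/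
theorem Disc_ne_zero [IsDomain A] [CharZero K] : Disc hy ≠ 0 := sorry

/-- A2a: enumeration of the fibre with multiplicities, trace formula. -/
theorem exists_enum [IsAlgClosed K] (α : K) : ∃ e : Fin d → (A →ₐ[K] K),
    (∀ Q : A →ₐ[K] K, (∃ i, e i = Q) ↔ Q t = α) ∧ ∀ f : A, (Tr hy f).eval α = ∑ i, e i f := sorry

/-- A2b: `Disc(α) = det (y_j(P_i))²`. -/
theorem Disc_eval (α : K) (e : Fin d → (A →ₐ[K] K))
    (he : ∀ f : A, (Tr hy f).eval α = ∑ i, e i f) :
    (Disc hy).eval α = (Matrix.det fun i j => e i (y j)) ^ 2 := sorry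

/-- A2c: the projective Vandermonde determinant of the pencil on the fibre. -/
theorem det_pencil (α : K) (e : Fin d → (A →ₐ[K] K)) (he : ∀ i, e i t = α) (a c : A) :
    ∏ i, ∏ j ∈ Finset.Ioi i, (e j c * e i a - e i c * e j a) =
      (Matrix.det fun i j => e i (y j)) * (Jdet hy a c).eval α := sorry

/-- A2d: unramified fibres. -/
theorem exists_finset_fibre [IsAlgClosed K] (α : K) (hα : (Disc hy).eval α ≠ 0) :
    ∃ F : Finset (A →ₐ[K] K), (∀ P, P ∈ F ↔ P t = α) ∧ F.card = d := sorry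

/-- A2e: the product over the ordered pairs of distinct points of an unramified fibre. -/
theorem prod_offDiag [IsAlgClosed K] (abv : AbsoluteValue K ℝ) (α : K)
    (hα : (Disc hy).eval α ≠ 0) (F : Finset (A →ₐ[K] K)) (hF : ∀ P, P ∈ F ↔ P t = α) (a c : A) :
    ∏ x ∈ F.offDiag, abv (x.1 a * x.2 c - x.1 c * x.2 a) =
      abv ((Disc hy).eval α) * abv ((Jdet hy a c).eval α) ^ 2 := sorry

/-- A3a: `Jdet(α) ≠ 0` iff the pencil monomials are independent modulo `t - α`. -/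
theorem Jdet_eval_ne_zero (α : K) (a c : A)
    (h : ∀ k : Fin d → K, ∑ i, k i • pen a c i ∈ Ideal.span {t - algebraMap K A α} → k = 0) :
    (Jdet hy a c).eval α ≠ 0 := sorry

/-- A3b: a good pencil is independent modulo `t - α` (no freeness hypothesis here). -/
theorem pencil_indep [IsDedekindDomain A] (α : K) (F : Multiset (A →ₐ[K] K)) (hcard : F.card = d)
    (hcount : ∀ Q ∈ F, t - algebraMap K A α ∈ RingHom.ker (Q : A →+* K) ^ F.count Q)
    (a c : A) (h1 : ∀ Q ∈ F, Q a = 1) (h2 : ∀ P ∈ F, ∀ Q ∈ F, P ≠ Q → P c ≠ Q c)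
    (h3 : ∀ Q ∈ F, Q c • a - c ∉ RingHom.ker (Q : A →+* K) ^ 2)
    (k : Fin d → K) (hk : ∑ i, k i • pen a c i ∈ Ideal.span {t - algebraMap K A α}) : k = 0 := sorry

/-- W1a: degree of a determinant with weighted rows and columns. -/
theorem natDegree_det_le_of_weights (M : Matrix (Fin d) (Fin d) K[X]) (e D : ℕ) (he : 0 < e)
    (n μ : Fin d → ℕ) (hD : e * D + ∑ j, μ j = ∑ i, n i)
    (h : ∀ i j, M i j ≠ 0 → e * (M i j).natDegree + μ j ≤ n i) : M.det.natDegree ≤ D := sorry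

/-- W1b: top coefficient of a determinant with weighted rows and columns. -/
theorem coeff_det_ne_zero_of_weights (M : Matrix (Fin d) (Fin d) K[X]) (e D : ℕ) (he : 0 < e)
    (n μ : Fin d → ℕ) (hD : e * D + ∑ j, μ j = ∑ i, n i)
    (h : ∀ i j, M i j ≠ 0 → e * (M i j).natDegree + μ j ≤ n i)
    (π : Equiv.Perm (Fin d))
    (h1 : ∀ i, M i (π i) ≠ 0 ∧ e * (M i (π i)).natDegree + μ (π i) = n i)
    (h2 : ∀ i j, j ≠ π i → M i j ≠ 0 → e * (M i j).natDegree + μ j ≠ n i) :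
    M.det.coeff D ≠ 0 := sorry

end Abstract

/-! ## Part W: curves -/

variable (𝔳 : AbsFam) {A : Type} [CommRing A] [Algebra Qb A] (C : WCurve A)

/-- W4: families of polynomials of degree `≤ D` without common zero on `ℙ¹`. -/
theorem proj_lower (D : ℕ) {ι : Type} (g : ι → Qb[X]) (hdeg : ∀ k, (g k).natDegree ≤ D)
    (h1 : ∀ α : Qb, ∃ k, (g k).eval α ≠ 0) (h2 : ∃ k, (g k).coeff D ≠ 0) :
    ∃ (S : Finset ι) (γ : MConst), ∀ (v : Pl) (α : Qb), ∃ k ∈ S,
      mx 𝔳 v α ^ D ≤ Real.exp (γ.c v) * 𝔳.av v ((g k).eval α) := sorry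

theorem g_le {m : ℕ} (hm : C.g + 1 ≤ m) : C.g ≤ (C.d - 1) * (m - 1) := sorry

variable (hy : ∀ f : A, ∃! p : Fin C.d → Qb[X], f = ∑ j, aeval C.t (p j) * C.b (ap C j))

/-- W3a: the coordinates of a rational function are rational polynomials. -/
theorem co_isRat {f : A} (hf : C.IsRat f) (j : Fin C.d) :
    ∃ q : ℚ[X], co hy f j = q.map (algebraMap ℚ Qb) := sorry

/-- W3b. -/
theorem Disc_isRat : ∃ Δ : ℚ[X], Disc hy = Δ.map (algebraMap ℚ Qb) := sorry

/-- W2a (`hwt` is the node `wt_apery` of block AP). -/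
theorem natDegree_Jdet_le
    (hwt : ∀ (p : Fin C.d → Qb[X]) (j : Fin C.d), p j ≠ 0 →
      C.d * (p j).natDegree + C.ρ (ap C j) ≤ C.wt (∑ j, aeval C.t (p j) * C.b (ap C j)))
    {m : ℕ} (hm : C.g + 1 ≤ m) {a c : A} (ha : a ∈ C.V (m - 1))
    (hc : c ∈ C.V m) : (Jdet hy a c).natDegree ≤ (C.d - 1) * (m - 1) - C.g := sorry

/-- W2b (`hwt` is the node `wt_apery` of block AP). -/
theorem coeff_Jdet_ne_zero
    (hwt : ∀ (p : Fin C.d → Qb[X]) (j : Fin C.d), p j ≠ 0 →
      C.d * (p j).natDegree + C.ρ (ap C j) ≤ C.wt (∑ j, aeval C.t (p j) * C.b (ap C j)))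
    {m : ℕ} (hm : C.g + 2 ≤ m) {a c : A} (ha : C.wt a = m - 1)
    (hc : C.wt c = m) : (Jdet hy a c).coeff ((C.d - 1) * (m - 1) - C.g) ≠ 0 := sorry

end Fermat.Agent.S17.H.WIP.X2
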